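import Mathlib

/-!
# Transport of Galois groups between intermediate fields with the same carrier

`M₁ : IntermediateField K₁ Om` and `M₂ : IntermediateField K₂ Om` with the same elements
(`x ∈ M₁ ↔ x ∈ M₂`), over two base fields `K₁`, `K₂` mapping to `Om`.

* `carrierEquiv h : M₁ ≃+* M₂`;
* `conjHom h hK : Gal(M₂/K₂) →* Gal(M₁/K₁)` when the image of `K₁` is contained in the image
  of `K₂`;
* `conjHomSub h H hH : H →* Gal(M₂/K₂)` for a subgroup `H ≤ Gal(M₁/K₁)` fixing the image of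
  `K₂` pointwise.

Mathlib only.
-/

set_option autoImplicit false
set_option maxSynthPendingDepth 3

namespace Fermat.Agent.H49.Brauer

variable {K₁ K₂ Om : Type*} [Field K₁] [Field K₂] [Field Om] [Algebra K₁ Om] [Algebra K₂ Om]
  {M₁ : IntermediateField K₁ Om} {M₂ : IntermediateField K₂ Om}

/-- The identity on elements, as a ring isomorphism. -/
def carrierEquiv (h : ∀ x : Om, x ∈ M₁ ↔ x ∈ M₂) : M₁ ≃+* M₂ where
  toFun x := ⟨x.1, (h x.1).1 x.2⟩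
  invFun y := ⟨y.1, (h y.1).2 y.2⟩
  left_inv _ := rfl
  right_inv _ := rfl
  map_mul' _ _ := rfl
  map_add' _ _ := rfl

@[simp] theorem coe_carrierEquiv (h : ∀ x : Om, x ∈ M₁ ↔ x ∈ M₂) (x : M₁) :
    ((carrierEquiv h x : M₂) : Om) = (x : Om) := rfl

@[simp] theorem coe_carrierEquiv_symm (h : ∀ x : Om, x ∈ M₁ ↔ x ∈ M₂) (y : M₂) :
    (((carrierEquiv h).symm y : M₁) : Om) = (y : Om) := rfl

/-- Conjugation of an automorphism of `M₂ / K₂` to an automorphism of `M₁ / K₁`. -/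
def conjEquiv (h : ∀ x : Om, x ∈ M₁ ↔ x ∈ M₂)
    (hK : ∀ k : K₁, ∃ k' : K₂, algebraMap K₂ Om k' = algebraMap K₁ Om k)
    (σ : M₂ ≃ₐ[K₂] M₂) : M₁ ≃ₐ[K₁] M₁ :=
  AlgEquiv.ofRingEquiv
    (f := (carrierEquiv h).trans (σ.toRingEquiv.trans (carrierEquiv h).symm))
    (fun k => by
      obtain ⟨k', hk'⟩ := hK k
      apply Subtype.ext
      have h1 : carrierEquiv h (algebraMap K₁ M₁ k) = algebraMap K₂ M₂ k' :=
        Subtype.ext hk'.symm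
      show (((carrierEquiv h).symm (σ (carrierEquiv h (algebraMap K₁ M₁ k))) : M₁) : Om) = _
      rw [h1, σ.commutes]
      exact hk')

theorem coe_conjEquiv_apply (h : ∀ x : Om, x ∈ M₁ ↔ x ∈ M₂)
    (hK : ∀ k : K₁, ∃ k' : K₂, algebraMap K₂ Om k' = algebraMap K₁ Om k)
    (σ : M₂ ≃ₐ[K₂] M₂) (x : M₁) :
    ((conjEquiv h hK σ x : M₁) : Om) = ((σ (carrierEquiv h x) : M₂) : Om) := rfl

/-- `Gal(M₂/K₂) →* Gal(M₁/K₁)`. -/
def conjHom (h : ∀ x : Om, x ∈ M₁ ↔ x ∈ M₂)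
    (hK : ∀ k : K₁, ∃ k' : K₂, algebraMap K₂ Om k' = algebraMap K₁ Om k) :
    (M₂ ≃ₐ[K₂] M₂) →* (M₁ ≃ₐ[K₁] M₁) where
  toFun := conjEquiv h hK
  map_one' := by
    ext x
    rfl
  map_mul' σ τ := by
    ext x
    rfl

theorem coe_conjHom_apply (h : ∀ x : Om, x ∈ M₁ ↔ x ∈ M₂)
    (hK : ∀ k : K₁, ∃ k' : K₂, algebraMap K₂ Om k' = algebraMap K₁ Om k)
    (σ : M₂ ≃ₐ[K₂] M₂) (x : M₁) :
    ((conjHom h hK σ x : M₁) : Om) = ((σ (carrierEquiv h x) : M₂) : Om) := rfl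

/-- Conjugation of an automorphism of `M₁ / K₁` fixing the image of `K₂` to an automorphism of
`M₂ / K₂`. -/
def conjEquivSub (h : ∀ x : Om, x ∈ M₁ ↔ x ∈ M₂) (σ : M₁ ≃ₐ[K₁] M₁)
    (hσ : ∀ x : M₁, (x : Om) ∈ Set.range (algebraMap K₂ Om) → σ x = x) : M₂ ≃ₐ[K₂] M₂ :=
  AlgEquiv.ofRingEquiv
    (f := (carrierEquiv h).symm.trans (σ.toRingEquiv.trans (carrierEquiv h)))
    (fun k => by
      apply Subtype.ext
      show ((σ ((carrierEquiv h).symm (algebraMap K₂ M₂ k)) : M₁) : Om) = _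
      rw [hσ _ ⟨k, rfl⟩]
      rfl)

theorem coe_conjEquivSub_apply (h : ∀ x : Om, x ∈ M₁ ↔ x ∈ M₂) (σ : M₁ ≃ₐ[K₁] M₁)
    (hσ : ∀ x : M₁, (x : Om) ∈ Set.range (algebraMap K₂ Om) → σ x = x) (y : M₂) :
    ((conjEquivSub h σ hσ y : M₂) : Om) = ((σ ((carrierEquiv h).symm y) : M₁) : Om) := rfl

/-- `H →* Gal(M₂/K₂)` for a subgroup `H ≤ Gal(M₁/K₁)` fixing the image of `K₂`. -/
def conjHomSub (h : ∀ x : Om, x ∈ M₁ ↔ x ∈ M₂) (H : Subgroup (M₁ ≃ₐ[K₁] M₁))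
    (hH : ∀ σ ∈ H, ∀ x : M₁, (x : Om) ∈ Set.range (algebraMap K₂ Om) → σ x = x) :
    H →* (M₂ ≃ₐ[K₂] M₂) where
  toFun σ := conjEquivSub h σ.1 (hH σ.1 σ.2)
  map_one' := by
    ext x
    rfl
  map_mul' σ τ := by
    ext x
    rfl

theorem coe_conjHomSub_apply (h : ∀ x : Om, x ∈ M₁ ↔ x ∈ M₂) (H : Subgroup (M₁ ≃ₐ[K₁] M₁))
    (hH : ∀ σ ∈ H, ∀ x : M₁, (x : Om) ∈ Set.range (algebraMap K₂ Om) → σ x = x)
    (σ : H) (y : M₂) :
    ((conjHomSub h H hH σ y : M₂) : Om) =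
      (((σ : M₁ ≃ₐ[K₁] M₁) ((carrierEquiv h).symm y) : M₁) : Om) := rfl

/-- The composite `H → Gal(M₂/K₂) → Gal(M₁/K₁)` is the inclusion. -/
theorem conjHom_conjHomSub (h : ∀ x : Om, x ∈ M₁ ↔ x ∈ M₂)
    (hK : ∀ k : K₁, ∃ k' : K₂, algebraMap K₂ Om k' = algebraMap K₁ Om k)
    (H : Subgroup (M₁ ≃ₐ[K₁] M₁))
    (hH : ∀ σ ∈ H, ∀ x : M₁, (x : Om) ∈ Set.range (algebraMap K₂ Om) → σ x = x) (σ : H) :
    conjHom h hK (conjHomSub h H hH σ) = (σ : M₁ ≃ₐ[K₁] M₁) := by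
  ext x
  rfl

/-- An automorphism of `adjoin K₂ S / K₂` fixing `S` pointwise is the identity. -/
theorem eq_one_of_fixes_adjoin {S : Set Om} (σ : IntermediateField.adjoin K₂ S ≃ₐ[K₂]
      IntermediateField.adjoin K₂ S)
    (hS : ∀ (x : Om) (hx : x ∈ S),
      ((σ ⟨x, IntermediateField.subset_adjoin K₂ S hx⟩ : IntermediateField.adjoin K₂ S) : Om)
        = x) : σ = 1 := by
  ext ⟨x, hx⟩
  show ((σ ⟨x, hx⟩ : IntermediateField.adjoin K₂ S) : Om) = x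
  induction hx using IntermediateField.adjoin_induction with
  | mem x hx => exact hS x hx
  | algebraMap k =>
    have : (⟨algebraMap K₂ Om k, IntermediateField.algebraMap_mem _ k⟩ :
        IntermediateField.adjoin K₂ S) = algebraMap K₂ _ k := rfl
    rw [this, σ.commutes]
    rfl
  | add x y hx hy ihx ihy =>
    have : (⟨x + y, add_mem hx hy⟩ : IntermediateField.adjoin K₂ S) = ⟨x, hx⟩ + ⟨y, hy⟩ := rfl
    rw [this, map_add]
    show ((σ ⟨x, hx⟩ : IntermediateField.adjoin K₂ S) : Om) + (σ ⟨y, hy⟩ : _) = x + y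
    rw [ihx, ihy]
  | inv x hx ihx =>
    have : (⟨x⁻¹, inv_mem hx⟩ : IntermediateField.adjoin K₂ S) = (⟨x, hx⟩)⁻¹ := rfl
    rw [this, map_inv₀]
    show ((σ ⟨x, hx⟩ : IntermediateField.adjoin K₂ S) : Om)⁻¹ = x⁻¹
    rw [ihx]
  | mul x y hx hy ihx ihy =>
    have : (⟨x * y, mul_mem hx hy⟩ : IntermediateField.adjoin K₂ S) = ⟨x, hx⟩ * ⟨y, hy⟩ := rfl
    rw [this, map_mul]
    show ((σ ⟨x, hx⟩ : IntermediateField.adjoin K₂ S) : Om) * (σ ⟨y, hy⟩ : _) = x * y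
    rw [ihx, ihy]

end Fermat.Agent.H49.Brauer
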