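import Mathlib
import Fermat.Agent.H61.CFT.UnramBrauerH2

set_option autoImplicit false
set_option maxSynthPendingDepth 3

noncomputable section

open CategoryTheory groupCohomology

namespace Fermat.Agent.H49.Brauer

open Fermat.Agent.H61.CFT

variable {G M : Type} [Group G] [CommGroup M] [MulDistribMulAction G M]

/-- The restriction to a subgroup `H` of the class of a multiplicative 2-cocycle vanishes as
soon as the restricted cochain is a coboundary on `H`. -/
theorem res_h2Class_eq_zero (H : Subgroup G) {c : G × G → M} (hc : IsMulCocycle₂ c)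
    (hcob : IsMulCoboundary₂ (fun p : H × H => c ((p.1 : G), (p.2 : G)))) :
    groupCohomology.map H.subtype
      (𝟙 (Rep.res H.subtype (Rep.ofMulDistribMulAction G M))) 2 (h2Class hc) = 0 := by
  unfold h2Class
  rw [H2π_comp_map_apply, H2π_eq_zero_iff]
  obtain ⟨x, hx⟩ := hcob
  refine ⟨fun g => Additive.ofMul (x g), funext fun p => ?_⟩
  exact hx p.1 p.2

end Fermat.Agent.H49.Brauer
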