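import Fermat.Agent.H24.Brauer.Interfaces
import Fermat.Agent.H61.CFT.UnramH78
import Fermat.Agent.H78.CFT.LocalNormIndex
import Fermat.Agent.H98.Brauer.FinLvl
import Fermat.Agent.H81.Local.EF
import Fermat.Agent.H49.CFT.UnramQbar
import Fermat.Agent.H49.Brauer.FieldConj
import Fermat.Agent.H49.Brauer.ResH2

/-!
# P-CFT / LOCAL, block LOC-6, row BR-UNRAM (helper49): `UnramSplitStatement`

Every finite Galois extension `F / E` of degree `n` of a finite extension `E` of `K_v` is split
by the unramified class of degree `n`: with `E_n = unramExt q E n`, `L = F ⊔ E_n` and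
`y` = the inflation to `Gal(L/E)` of the class of the standard cocycle `u_π` of `E_n / E`,

* `m • y = 0 → n ∣ m` (finite level inflation is injective on classes, helper98's `inflFinInj`,
  and `u_π` has exact order `n`, helper61 + helper78's norm index theorem);
* the restriction of `y` to `Gal(L/F)` vanishes: `L / F` is unramified of degree `e`
  (`e f = n`, helper81's `exists_ef`), and `v_F(π_E) = e`, so that the pulled back cocycle is
  a coboundary (helper61's `exists_gen_baseChange`).
-/

set_option autoImplicit false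
set_option linter.style.haveILetI false
set_option synthInstance.maxHeartbeats 400000
set_option maxSynthPendingDepth 3

noncomputable section

open CategoryTheory groupCohomology

namespace Fermat.Agent.H49.Brauer

open Fermat.Agent.H78.CFT Fermat.Agent.H81.Local Fermat.Agent.H61.CFT Fermat.Agent.H49.Unram
  Fermat.Agent.H24.Brauer

/-- Shortcut instance (instance search for the action of `Gal(L/E)` on `Lˣ` is slow for
intermediate fields of `ℚ̄`). -/
local instance (priority := 10000) algEquivUnitsSMul {K M : Type*} [CommSemiring K] [Semiring M]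
    [Algebra K M] : SMul (M ≃ₐ[K] M) Mˣ :=
  AlgEquiv.instMulDistribMulActionUnits.toSMul

/-- Shortcut instance. -/
local instance (priority := 10000) algEquivUnitsMulAction {K M : Type*} [CommSemiring K]
    [Semiring M] [Algebra K M] : MulAction (M ≃ₐ[K] M) Mˣ :=
  AlgEquiv.instMulDistribMulActionUnits.toMulAction

variable {q : ℕ} [Fact q.Prime]

/-- `F ⊔ E(μ_N)` and `F(μ_N)` have the same elements. -/
theorem mem_sup_cyclo_iff (E : IntermediateField ℚ Qb) (F : IntermediateField E Qb) (N : ℕ)
    (x : Qb) : x ∈ F ⊔ cyclo E Qb N ↔ x ∈ cyclo (F.restrictScalars ℚ) Qb N := by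
  have hEF : E ≤ F.restrictScalars ℚ := fun x hx => F.algebraMap_mem ⟨x, hx⟩
  letI : Algebra E (F.restrictScalars ℚ) :=
    (IntermediateField.inclusion hEF).toRingHom.toAlgebra
  haveI : IsScalarTower E (F.restrictScalars ℚ) Qb :=
    IsScalarTower.of_algebraMap_eq (fun x => rfl)
  constructor
  · intro hx
    have hle : F ⊔ cyclo E Qb N ≤ (cyclo (F.restrictScalars ℚ) Qb N).restrictScalars E := by
      apply sup_le
      · intro y hy
        exact (cyclo (F.restrictScalars ℚ) Qb N).algebraMap_mem ⟨y, hy⟩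
      · intro y hy
        exact mem_cyclo_baseChange (F.restrictScalars ℚ) hy
    exact hle hx
  · intro hx
    have hFL : F.restrictScalars ℚ ≤ (F ⊔ cyclo E Qb N).restrictScalars ℚ :=
      fun y hy => (le_sup_left : F ≤ F ⊔ cyclo E Qb N) hy
    have hle : cyclo (F.restrictScalars ℚ) Qb N ≤ IntermediateField.extendScalars hFL := by
      rw [cyclo, IntermediateField.adjoin_le_iff]
      intro ζ hζ
      rw [SetLike.mem_coe, IntermediateField.mem_extendScalars]
      exact (le_sup_right : cyclo E Qb N ≤ F ⊔ cyclo E Qb N)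
        (IntermediateField.subset_adjoin E _ hζ)
    exact (IntermediateField.mem_extendScalars hFL).1 (hle hx)

/-- `IsUnifVal` for the restricted valuation gives `IsUnif`. -/
theorem isUnif_of_isUnifVal {E : IntermediateField ℚ Qb} (M : IntermediateField E Qb)
    {π : E} (hπ : IsUnifVal ((qVal q).comap (algebraMap M Qb)) π) : IsUnif q E (π : Qb) := by
  refine ⟨π.2, fun h => hπ.1 (Subtype.ext h), hπ.2.1, fun x hx hx0 => ?_⟩
  exact hπ.2.2 ⟨x, hx⟩ (fun h => hx0 (congrArg Subtype.val h))

/-- Unramifiedness in helper61's form from `IsUnramCyclic`. -/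
theorem isUnramVal_of_isUnramCyclic {E : IntermediateField ℚ Qb} {M : IntermediateField E Qb}
    {Q n : ℕ} {φ : M ≃ₐ[E] M} (hφ : IsUnramCyclic (qVal q) Q M n φ) :
    IsUnramVal E ((qVal q).comap (algebraMap M Qb)) := by
  intro x hx
  obtain ⟨y, hy⟩ := hφ.unram x hx
  refine ⟨y, ?_, hy⟩
  rintro rfl
  have h0 : (qVal q) (x : Qb) = 0 := by
    rw [hy, map_zero, map_zero]
  exact hx (Subtype.ext ((map_eq_zero _).1 h0))

/-! ### The splitting field `L = F ⊔ E_n` -/

variable (q) in
/-- The field `L = F ⊔ E_n`, `n = [F : E]`. -/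
def splitField (E : IntermediateField ℚ Qb) (F : IntermediateField E Qb) :
    IntermediateField E Qb :=
  F ⊔ unramExt q E (Module.finrank E F)

theorem le_splitField (E : IntermediateField ℚ Qb) (F : IntermediateField E Qb) :
    F ≤ splitField q E F := le_sup_left

theorem unramExt_le_splitField (E : IntermediateField ℚ Qb) (F : IntermediateField E Qb) :
    unramExt q E (Module.finrank E F) ≤ splitField q E F := le_sup_right

theorem finiteDimensional_splitField {E : IntermediateField ℚ Qb} (hE : IsLocalFinite q E)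
    (F : IntermediateField E Qb) [FiniteDimensional E F] :
    FiniteDimensional E (splitField q E F) := by
  obtain ⟨φ, hφ⟩ := exists_frob_unramExt hE (Module.finrank_pos (R := E) (M := F))
  haveI : FiniteDimensional E (unramExt q E (Module.finrank E F)) := hφ.finiteDimensional
  exact IntermediateField.finiteDimensional_sup F (unramExt q E (Module.finrank E F))

theorem isGalois_splitField {E : IntermediateField ℚ Qb} (hE : IsLocalFinite q E)
    (F : IntermediateField E Qb) [FiniteDimensional E F] [IsGalois E F] :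
    IsGalois E (splitField q E F) := by
  obtain ⟨φ, hφ⟩ := exists_frob_unramExt hE (Module.finrank_pos (R := E) (M := F))
  haveI : IsGalois E (unramExt q E (Module.finrank E F)) := hφ.isGalois
  haveI : Normal E (splitField q E F) :=
    inferInstanceAs (Normal E
      (F ⊔ unramExt q E (Module.finrank E F) : IntermediateField E Qb))
  haveI := finiteDimensional_splitField hE F
  exact ⟨⟩

theorem mem_splitField_iff (E : IntermediateField ℚ Qb) (F : IntermediateField E Qb) (x : Qb) :
    x ∈ splitField q E F ↔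
      x ∈ cyclo (F.restrictScalars ℚ) Qb (resCard q E ^ Module.finrank E F - 1) :=
  mem_sup_cyclo_iff E F _ x

/-! ### The inflated cocycle and its order -/

theorem unitsFL_resFL_smul (E : IntermediateField ℚ Qb) (M L : IntermediateField E Qb)
    (hle : M ≤ L) [Normal E M] (σ : L ≃ₐ[E] L) (a : Mˣ) :
    unitsFL E M L hle (resFL E M L hle σ • a) = σ • unitsFL E M L hle a := by
  apply Units.ext
  apply Subtype.ext
  exact resFL_apply E M L hle σ (a : M)

theorem isMulCocycle₂_inflFL (E : IntermediateField ℚ Qb) (M L : IntermediateField E Qb)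
    (hle : M ≤ L) [Normal E M] {c : (M ≃ₐ[E] M) × (M ≃ₐ[E] M) → Mˣ} (hc : IsMulCocycle₂ c) :
    IsMulCocycle₂ (inflFL E M L hle c) :=
  isMulCocycle₂_pullCochain _ _ (unitsFL_resFL_smul E M L hle) hc

theorem order_inflFL (E : IntermediateField ℚ Qb) (M L : IntermediateField E Qb) (hle : M ≤ L)
    [FiniteDimensional E M] [IsGalois E M] [FiniteDimensional E L] [IsGalois E L]
    {Γ₀ : Type*} [LinearOrderedCommGroupWithZero Γ₀] {v : Valuation M Γ₀} {π : E}
    {φ : M ≃ₐ[E] M} (hg : IsGen φ) (hgal : ∀ (σ : M ≃ₐ[E] M) (x : M), v (σ x) = v x)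
    (hur : IsUnramVal E v) (hπ : IsUnifVal v π)
    (hidx : (normSubgp E M).index = Module.finrank E M)
    (hc : IsMulCocycle₂ (inflFL E M L hle (stdCocycle φ (unitsIncl E M (Units.mk0 π hπ.1)))))
    (m : ℤ) (hm : m • h2Class hc = 0) : (Module.finrank E M : ℤ) ∣ m := by
  have hm' : IsMulCoboundary₂
      (fun p => inflFL E M L hle (stdCocycle φ (unitsIncl E M (Units.mk0 π hπ.1))) p ^ m) :=
    (zsmul_h2Class_eq_zero_iff hc m).1 hm
  have h1 : IsMulCoboundary₂ (inflFL E M L hle (stdCocycle φ (unifUnit hπ ^ m))) := by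
    refine isMulCoboundary₂_congr (fun p => ?_) hm'
    simp only [inflFL, pullCochain, unifUnit]
    rw [stdCocycle_zpow, map_zpow]
  have hcm : IsMulCocycle₂ (stdCocycle φ (unifUnit hπ ^ m)) := by
    have : unifUnit hπ ^ m = unitsIncl E M ((Units.mk0 π hπ.1) ^ m) := by
      rw [unifUnit, map_zpow]
    rw [this]
    exact isMulCocycle₂_stdCocycle_unitsIncl hg _
  have h2 := Fermat.Agent.H98.Brauer.inflFinInj E M L hle _ hcm h1
  exact (isMulCoboundary₂_unif_zpow_iff hg hgal hur hπ hidx m).1 h2

/-! ### The restriction to `Gal(L/F)` -/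

/-- **Restriction of the inflated standard cocycle.**  `M / E` cyclic with generator `φ`,
`M ≤ L`, and `L' / F` (the same field as `L`, over the base `F`) unramified, satisfying the norm
index theorem, with `Gal(L'/F) → Gal(M/E)` injective.  If `v(a) = v(π_F) ^ e` with
`[L' : F] ∣ e`, the inflation to `Gal(L/E)` of the standard cocycle of `a ∈ Eˣ` restricts to a
coboundary on `galSub E F L`. -/
theorem isMulCoboundary₂_res_inflFL (E : IntermediateField ℚ Qb) (F M L : IntermediateField E Qb)
    (hML : M ≤ L) [FiniteDimensional E M] [IsGalois E M]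
    (L' : IntermediateField (F.restrictScalars ℚ) Qb)
    [FiniteDimensional (F.restrictScalars ℚ) L'] [IsGalois (F.restrictScalars ℚ) L']
    (hmem : ∀ x : Qb, x ∈ L ↔ x ∈ L')
    (hinj : ∀ σ : L' ≃ₐ[F.restrictScalars ℚ] L',
      (∀ x : L', (x : Qb) ∈ M → σ x = x) → σ = 1)
    {φ : M ≃ₐ[E] M} (hφ : IsGen φ)
    {Γ₀ : Type*} [LinearOrderedCommGroupWithZero Γ₀] {v' : Valuation L' Γ₀}
    {π' : F.restrictScalars ℚ}
    (hgal' : ∀ (σ : L' ≃ₐ[F.restrictScalars ℚ] L') (x : L'), v' (σ x) = v' x)
    (hur' : IsUnramVal (F.restrictScalars ℚ) v') (hπ' : IsUnifVal v' π')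
    (hidx' : (normSubgp (F.restrictScalars ℚ) L').index =
      Module.finrank (F.restrictScalars ℚ) L')
    (a : Eˣ) (e : ℤ)
    (hval : ∀ x : L', (x : Qb) = ((a : E) : Qb) →
      v' x = v' (algebraMap (F.restrictScalars ℚ) L' π') ^ e)
    (hdvd : (Module.finrank (F.restrictScalars ℚ) L' : ℤ) ∣ e) :
    IsMulCoboundary₂ (fun p : galSub E F L × galSub E F L =>
      inflFL E M L hML (stdCocycle φ (unitsIncl E M a))
        ((p.1 : L ≃ₐ[E] L), (p.2 : L ≃ₐ[E] L))) := by
  have hK : ∀ k : E, ∃ k' : F.restrictScalars ℚ,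
      algebraMap (F.restrictScalars ℚ) Qb k' = algebraMap E Qb k :=
    fun k => ⟨⟨algebraMap E Qb k, F.algebraMap_mem k⟩, rfl⟩
  have hH : ∀ σ ∈ galSub E F L, ∀ x : L,
      (x : Qb) ∈ Set.range (algebraMap (F.restrictScalars ℚ) Qb) → σ x = x := by
    rintro σ hσ x ⟨k, hk⟩
    apply hσ x
    rw [← hk]
    exact k.2
  -- the maps
  let j : M →+* L' :=
    ((carrierEquiv hmem : L ≃+* L') : L →+* L').comp
      ((IntermediateField.inclusion hML : M →ₐ[E] L) : M →+* L)
  have hj : ∀ x : M, ((j x : L') : Qb) = (x : Qb) := fun x => rfl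
  let ι : (L' ≃ₐ[F.restrictScalars ℚ] L') →* (M ≃ₐ[E] M) :=
    (resFL E M L hML).comp (conjHom hmem hK)
  have hι : ∀ (σ : L' ≃ₐ[F.restrictScalars ℚ] L') (x : M), j (ι σ x) = σ (j x) := by
    intro σ x
    apply Subtype.ext
    rw [hj]
    show ((resFL E M L hML (conjHom hmem hK σ) x : M) : Qb) = _
    rw [resFL_apply, coe_conjHom_apply]
    rfl
  have hιinj : Function.Injective ι := by
    rw [injective_iff_map_eq_one]
    intro σ hσ
    apply hinj
    intro x hx
    have h1 := hι σ ⟨(x : Qb), hx⟩
    rw [hσ] at h1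
    have h2 : j ⟨(x : Qb), hx⟩ = x := Subtype.ext rfl
    rw [h2] at h1
    exact h1.symm
  obtain ⟨φ', f, -, -, -, hmain⟩ :=
    exists_gen_baseChange hφ j ι hι hιinj hgal' hur' hπ' hidx'
  have hcob := ((hmain a e (hval _ rfl)).2.2).2 hdvd
  -- pull back to `galSub E F L`
  let κ : galSub E F L →* (L' ≃ₐ[F.restrictScalars ℚ] L') := conjHomSub hmem (galSub E F L) hH
  let ψ : L'ˣ →* Lˣ := Units.map (((carrierEquiv hmem).symm : L' ≃+* L) : L' →* L)
  have hψ : ∀ (σ : galSub E F L) (b : L'ˣ), ψ (κ σ • b) = σ • ψ b := by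
    intro σ b
    apply Units.ext
    apply Subtype.ext
    rfl
  have hcob' := isMulCoboundary₂_pullCochain κ ψ hψ hcob
  refine isMulCoboundary₂_congr (fun p => ?_) hcob'
  have hκ : ∀ σ : galSub E F L, ι (κ σ) = resFL E M L hML (σ : L ≃ₐ[E] L) := by
    intro σ
    show resFL E M L hML (conjHom hmem hK (conjHomSub hmem (galSub E F L) hH σ)) = _
    rw [conjHom_conjHomSub]
  simp only [pullCochain, inflFL, hκ]
  apply Units.ext
  apply Subtype.ext
  rfl

/-! ### The statement -/

set_option maxHeartbeats 1600000 in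
/-- **BR-UNRAM.** -/
theorem unramSplit : UnramSplitStatement := by
  intro q _ E hE F _ _
  classical
  have hn : 0 < Module.finrank E F := Module.finrank_pos
  -- the arithmetic of `F / E`
  have hF' : IsLocalFinite q (F.restrictScalars ℚ) := hE.of_finiteDimensional F
  have hEF' : E ≤ F.restrictScalars ℚ := fun x hx => F.algebraMap_mem ⟨x, hx⟩
  obtain ⟨e, f, he, hf, hef, hQ', hval⟩ := exists_ef hE F
  obtain ⟨f₂, hf₂, hQ₂, hbc⟩ := exists_frob_unramExt_baseChange hEF' hE hF'
  have hff : f₂ = f :=
    Nat.pow_right_injective (one_lt_Q (residueDatum_qbar hE)) (hQ₂.symm.trans hQ')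
  subst hff
  obtain ⟨φ', hφ', -⟩ := hbc (Module.finrank E F) hn
  have hdeg : Module.finrank E F / Nat.gcd (Module.finrank E F) f₂ = e := by
    rw [← hef, Nat.gcd_mul_left_left, Nat.mul_div_cancel _ hf]
  rw [hdeg] at hφ'
  -- the unramified extension `E_n / E`
  obtain ⟨φ, hφ⟩ := exists_frob_unramExt hE hn
  haveI : FiniteDimensional E (unramExt q E (Module.finrank E F)) := hφ.finiteDimensional
  haveI : IsGalois E (unramExt q E (Module.finrank E F)) := hφ.isGalois
  have hd := localNormDatum_unramExt hE hn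
  have hur : IsUnramVal E (qValOn q (unramExt q E (Module.finrank E F))) :=
    isUnramVal_of_isUnramCyclic hφ
  obtain ⟨π, hπ⟩ := exists_isUnifVal_of_datum hd
  have hg : IsGen φ := isGen_of_forall_mem_zpowers hφ.gen
  haveI : IsCyclic (unramExt q E (Module.finrank E F) ≃ₐ[E] unramExt q E (Module.finrank E F)) :=
    ⟨⟨φ, hφ.gen⟩⟩
  have hidx := index_normSubgp_of_normIndex normIndex hd
  have hfr : Module.finrank E (unramExt q E (Module.finrank E F)) = Module.finrank E F :=
    hφ.finrank_eq
  -- the extension `L' / F`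
  haveI : FiniteDimensional (F.restrictScalars ℚ)
      (cyclo (F.restrictScalars ℚ) Qb (resCard q E ^ Module.finrank E F - 1)) :=
    hφ'.finiteDimensional
  haveI : IsGalois (F.restrictScalars ℚ)
      (cyclo (F.restrictScalars ℚ) Qb (resCard q E ^ Module.finrank E F - 1)) :=
    hφ'.isGalois
  have hd' := localNormDatum_of_isUnramCyclic hφ' (unifK_qbar hF') (henselK_qbar hF')
  have hur' := isUnramVal_of_isUnramCyclic hφ'
  obtain ⟨π', hπ'⟩ := exists_isUnifVal_of_datum hd'
  haveI : IsCyclic (cyclo (F.restrictScalars ℚ) Qb (resCard q E ^ Module.finrank E F - 1)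
      ≃ₐ[F.restrictScalars ℚ]
      cyclo (F.restrictScalars ℚ) Qb (resCard q E ^ Module.finrank E F - 1)) :=
    ⟨⟨φ', hφ'.gen⟩⟩
  have hidx' := index_normSubgp_of_normIndex normIndex hd'
  have hfr' : Module.finrank (F.restrictScalars ℚ)
      (cyclo (F.restrictScalars ℚ) Qb (resCard q E ^ Module.finrank E F - 1)) = e :=
    hφ'.finrank_eq
  have hinj : ∀ σ : cyclo (F.restrictScalars ℚ) Qb (resCard q E ^ Module.finrank E F - 1)
      ≃ₐ[F.restrictScalars ℚ]
      cyclo (F.restrictScalars ℚ) Qb (resCard q E ^ Module.finrank E F - 1),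
      (∀ x : cyclo (F.restrictScalars ℚ) Qb (resCard q E ^ Module.finrank E F - 1),
        (x : Qb) ∈ unramExt q E (Module.finrank E F) → σ x = x) → σ = 1 := by
    intro σ hσ
    apply eq_one_of_fixes_adjoin (K₂ := F.restrictScalars ℚ)
      (S := {x : Qb | x ^ (resCard q E ^ Module.finrank E F - 1) = 1}) σ
    intro x hx
    exact congrArg Subtype.val (hσ ⟨x, IntermediateField.subset_adjoin _ _ hx⟩
      (IntermediateField.subset_adjoin E _ hx))
  have hvalπ : ∀ x : cyclo (F.restrictScalars ℚ) Qb (resCard q E ^ Module.finrank E F - 1),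
      (x : Qb) = (((Units.mk0 π hπ.1 : Eˣ) : E) : Qb) →
      ((qVal q).comap (algebraMap
        (cyclo (F.restrictScalars ℚ) Qb (resCard q E ^ Module.finrank E F - 1)) Qb)) x =
      ((qVal q).comap (algebraMap
        (cyclo (F.restrictScalars ℚ) Qb (resCard q E ^ Module.finrank E F - 1)) Qb))
        (algebraMap (F.restrictScalars ℚ) _ π') ^ (e : ℤ) := by
    intro x hx
    have h1 := hval (π : Qb) (π' : Qb)
      (isUnif_of_isUnifVal (unramExt q E (Module.finrank E F)) hπ)
      (isUnif_of_isUnifVal _ hπ')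
    rw [zpow_natCast]
    show qVal q (x : Qb) = qVal q (π' : Qb) ^ e
    rw [hx]
    exact h1
  -- the field `L` and the class
  haveI := finiteDimensional_splitField hE F
  haveI := isGalois_splitField hE F
  have hc : IsMulCocycle₂ (inflFL E (unramExt q E (Module.finrank E F)) (splitField q E F)
      (unramExt_le_splitField (q := q) E F)
      (stdCocycle φ (unitsIncl E (unramExt q E (Module.finrank E F)) (Units.mk0 π hπ.1)))) :=
    isMulCocycle₂_inflFL E _ _ _ (isMulCocycle₂_stdCocycle_unitsIncl hg _)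
  have hcob : IsMulCoboundary₂ (fun p : galSub E F (splitField q E F) ×
      galSub E F (splitField q E F) =>
      inflFL E (unramExt q E (Module.finrank E F)) (splitField q E F)
        (unramExt_le_splitField (q := q) E F)
        (stdCocycle φ (unitsIncl E (unramExt q E (Module.finrank E F)) (Units.mk0 π hπ.1)))
        ((p.1 : splitField q E F ≃ₐ[E] splitField q E F),
          (p.2 : splitField q E F ≃ₐ[E] splitField q E F))) :=
    isMulCoboundary₂_res_inflFL E F (unramExt q E (Module.finrank E F))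
      (splitField q E F) (unramExt_le_splitField (q := q) E F)
      (cyclo (F.restrictScalars ℚ) Qb (resCard q E ^ Module.finrank E F - 1))
      (mem_splitField_iff (q := q) E F) hinj hg hd'.galois_inv hur' hπ' hidx' (Units.mk0 π hπ.1) e
      hvalπ (by rw [hfr'])
  refine ⟨splitField q E F, inferInstance, inferInstance, le_splitField (q := q) E F, h2Class hc, ?_, ?_⟩
  · intro m hm
    have h := order_inflFL E _ _ (unramExt_le_splitField (q := q) E F) hg hd.galois_inv hur hπ hidx
      hc m hm
    rwa [hfr] at h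
  · exact res_h2Class_eq_zero (galSub E F (splitField q E F)) hc hcob

end Fermat.Agent.H49.Brauer
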